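import Fermat.Agent.JTorsion.PeriodPair
import Fermat.Agent.JTorsion.Eigen
import Fermat.Agent.ManinDrinfeld.Drinfeld

/-!
# The periods of an eigenform with integral coefficients have rank at most two

Every additive function of the periods of such a form gives an eigen homomorphism `Γ₀(N) → ℂ`.
The pairs of forms with these eigenvalues are multiples of `f`, so the space of these homomorphisms
has dimension at most two.
-/

set_option autoImplicit false

noncomputable section

namespace FA.PeriodLattice

open CongruenceSubgroup ModularCurve ModularCurve.Period FA.Period FA.JTorsion FA.Deform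
open FA.ManinDrinfeld
open scoped MatrixGroups

variable {N : ℕ} [NeZero N] {f : CuspForm (Gamma0 N) 2} {a : ℕ → ℤ}

/-- The periods of `f`. -/
abbrev periods (f : CuspForm (Gamma0 N) 2) : AddSubgroup ℂ := (periodMap N f).range

theorem qLin_heckeForm {p : ℕ} [NeZero p] (hp : p.Prime) (u : CuspForm (Gamma0 N) 2) (n : ℕ) :
    qLin N (heckeForm N p hp u) n =
      qLin N u (n * p) + (if p ∣ n then cor N p * qLin N u (n / p) else 0) := by
  rw [heckeForm]
  by_cases h : p ∣ N
  · rw [dif_pos h, qLin_heckeU hp h]
    simp [cor, h]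
  · rw [dif_neg h, qLin_heckeT hp h]
    simp [cor, h]

theorem heckeForm_eigen (hf : f.IsNormalizedEigenform) {p : ℕ} [NeZero p] (hp : p.Prime) :
    heckeForm N p hp f = qLin N f p • f :=
  qLin_injective (funext fun n => by
    rw [qLin_heckeForm, map_smul, Pi.smul_apply, smul_eq_mul, qCoeff_rec hf hp n])

/-- **Multiplicity one**: a form with the eigenvalues of `f` is a multiple of `f`. -/
theorem eq_smul_of_eigen (hf : f.IsNormalizedEigenform) {u : CuspForm (Gamma0 N) 2}
    (h : ∀ (p : ℕ) (hp : p.Prime), haveI : NeZero p := ⟨hp.ne_zero⟩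
      heckeForm N p hp u = qLin N f p • u) :
    u = qLin N u 1 • f := by
  set w := u - qLin N u 1 • f with hw
  have hw1 : qLin N w 1 = 0 := by
    rw [hw, map_sub, map_smul, Pi.sub_apply, Pi.smul_apply, smul_eq_mul,
      show qLin N f 1 = 1 from hf.qCoeff_one, mul_one, sub_self]
  refine sub_eq_zero.mp (qLin_injective (funext fun n => ?_))
  rw [map_zero, Pi.zero_apply, ← hw]
  induction n using Nat.strong_induction_on with
  | _ n ih =>
    rcases Nat.eq_zero_or_pos n with rfl | hn
    · exact qLin_zero_apply w
    rcases eq_or_ne n 1 with rfl | hne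
    · exact hw1
    obtain ⟨p, hp, k, rfl⟩ := Nat.exists_prime_and_dvd hne
    have : NeZero p := ⟨hp.ne_zero⟩
    have hk : k < p * k := lt_mul_of_one_lt_left (Nat.pos_of_mul_pos_left hn) hp.one_lt
    have he : heckeForm N p hp w = qLin N f p • w := by
      rw [hw, map_sub, map_smul, h p hp, heckeForm_eigen hf hp, smul_sub,
        smul_comm (qLin N u 1) (qLin N f p) f]
    have e := congrArg (fun v => qLin N v k) he
    simp only [qLin_heckeForm, map_smul, Pi.smul_apply, smul_eq_mul, ih k hk, mul_zero] at e
    rw [mul_comm p k]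
    by_cases hpk : p ∣ k
    · rw [if_pos hpk, ih _ ((Nat.div_le_self k p).trans_lt hk), mul_zero, add_zero] at e
      exact e
    · rw [if_neg hpk, add_zero] at e
      exact e

theorem twistW_mem {φ : Additive (Gamma0 N) →+ ℂ} (hφ : φ ∈ parabolicHoms ℂ (Gamma0 N) ℂ) :
    twistW N φ ∈ parabolicHoms ℂ (Gamma0 N) ℂ :=
  mem_parabolicHoms_iff.2 fun γ hγ => by
    rw [twistW_apply]
    exact (mem_parabolicHoms_iff.1 hφ) _ (by rw [wConj_trace]; exact hγ)

/-- The eigen homomorphisms belong to a space of dimension two. -/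
theorem mem_span_of_eigen (hf : f.IsNormalizedEigenform) {φ : Additive (Gamma0 N) →+ ℂ}
    (hφ : φ ∈ parabolicHoms ℂ (Gamma0 N) ℂ)
    (he : ∀ (p : ℕ) (hp : p.Prime), haveI : NeZero p := ⟨hp.ne_zero⟩
      ∀ γ : Gamma0 N, heckeChar N p (fun x => φ (Additive.ofMul x)) γ =
        qLin N f p * φ (Additive.ofMul γ)) :
    φ ∈ Submodule.span ℂ ({pairPeriod N (f, 0), pairPeriod N (0, f)} :
      Set (Additive (Gamma0 N) →+ ℂ)) := by
  obtain ⟨⟨u, v⟩, huv⟩ := exists_pairPeriod_eq N hφ
  have hpair : ∀ (p : ℕ) (hp : p.Prime), haveI : NeZero p := ⟨hp.ne_zero⟩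
      (heckeForm N p hp u, heckeForm N p hp v) = qLin N f p • (u, v) := by
    intro p hp
    have : NeZero p := ⟨hp.ne_zero⟩
    refine pairPeriod_injective N (AddMonoidHom.ext fun g => ?_)
    have h := pairPeriod_heckeForm N p hp (u, v) g.toMul
    simp only [huv, he p hp] at h
    rw [map_smul, huv]
    exact h
  have hu := eq_smul_of_eigen hf fun p hp => congrArg Prod.fst (hpair p hp)
  have hv := eq_smul_of_eigen hf fun p hp => congrArg Prod.snd (hpair p hp)
  rw [← huv, show ((u, v) : FormPair N) =
      qLin N u 1 • ((f, 0) : FormPair N) + qLin N v 1 • ((0, f) : FormPair N) by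
    simp only [Prod.smul_mk, Prod.mk_add_mk, smul_zero, add_zero, zero_add]
    rw [← hu, ← hv], map_add, map_smul, map_smul]
  exact add_mem (Submodule.smul_mem _ _ (Submodule.subset_span (Set.mem_insert _ _)))
    (Submodule.smul_mem _ _ (Submodule.subset_span (Set.mem_insert_of_mem _ rfl)))

/-- An additive function of the periods is an eigen homomorphism. -/
theorem comp_periods_eigen (hf : f.IsNormalizedEigenform)
    (ha : ∀ n, qLin N f n = (a n : ℂ)) (k : periods f →+ ℂ) :
    twistW N (k.comp (periodMap N f).rangeRestrict) ∈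
      Submodule.span ℂ ({pairPeriod N (f, 0), pairPeriod N (0, f)} :
        Set (Additive (Gamma0 N) →+ ℂ)) := by
  have hpar : k.comp (periodMap N f).rangeRestrict ∈ parabolicHoms ℂ (Gamma0 N) ℂ :=
    mem_parabolicHoms_iff.2 fun γ hγ => by
      have h : (periodMap N f).rangeRestrict (Additive.ofMul γ) = 0 :=
        Subtype.ext ((mem_parabolicHoms_iff.1 (periodMap_mem_parabolicHoms f)) γ hγ)
      rw [AddMonoidHom.comp_apply, h, map_zero]
  refine mem_span_of_eigen hf (twistW_mem hpar) fun p hp => ?_
  have : NeZero p := ⟨hp.ne_zero⟩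
  intro γ
  simp only [twistW_apply, AddMonoidHom.comp_apply]
  have key : heckeChar N p
      (fun x => (periodMap N f).rangeRestrict (Additive.ofMul (wConj N x))) γ =
      a p • (periodMap N f).rangeRestrict (Additive.ofMul (wConj N γ)) := by
    refine Subtype.ext ?_
    have h := periodMap_heckeForm N p hp f γ
    rw [heckeForm_eigen hf hp, periodMap_smul, AddMonoidHom.smul_apply, ha, smul_eq_mul] at h
    rw [AddSubgroup.coe_zsmul, zsmul_eq_mul, AddMonoidHom.coe_rangeRestrict, h, heckeChar,
      transferFun]
    rw [AddSubgroup.val_finsetSum]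
    rfl
  have h2 := congrArg k key
  rw [map_zsmul, zsmul_eq_mul, ← ha] at h2
  rw [← h2]
  exact (map_sum k _ _).symm

theorem finite_periods (f : CuspForm (Gamma0 N) 2) : Module.Finite ℤ (periods f) := by
  have := FA.HeckeH1.group_fg
  have hΓ : Group.FG (Gamma0 N) := inferInstance
  have : AddGroup.FG (Additive (Gamma0 N)) := inferInstance
  exact Module.Finite.iff_addGroup_fg.mpr (AddGroup.fg_range (periodMap N f))

/-- **Rank at most two**: the periods are generated by two numbers. -/
theorem exists_two_generators (hf : f.IsNormalizedEigenform)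
    (ha : ∀ n, qLin N f n = (a n : ℂ)) :
    ∃ w₁ ∈ periods f, ∃ w₂ ∈ periods f,
      periods f ≤ AddSubgroup.closure ({w₁, w₂} : Set ℂ) := by
  have := finite_periods f
  have : Module.Free ℤ (periods f) := Module.free_of_finite_type_torsion_free'
  set b := Module.finBasis ℤ (periods f) with hb
  set r := Module.finrank ℤ (periods f)
  choose g hg using fun j => (periodMap N f).rangeRestrict_surjective (b j)
  let φ : Fin r → (Additive (Gamma0 N) →+ ℂ) := fun i => twistW N
    (((Int.castAddHom ℂ).comp (b.coord i).toAddMonoidHom).comp (periodMap N f).rangeRestrict)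
  have hli : LinearIndependent ℂ φ := by
    refine Fintype.linearIndependent_iff.mpr fun c hc j => ?_
    have h := DFunLike.congr_fun hc (Additive.ofMul (wConj N (g j).toMul))
    rw [AddMonoidHom.finsetSum_apply] at h
    simpa [φ, twistW_apply, wConj_wConj, hg, Module.Basis.repr_self, Finsupp.single_apply] using h
  classical
  have hspan : Set.range φ ⊆ Submodule.span ℂ
      (({pairPeriod N (f, 0), pairPeriod N (0, f)} : Finset (Additive (Gamma0 N) →+ ℂ)) :
        Set (Additive (Gamma0 N) →+ ℂ)) := by
    rintro _ ⟨i, rfl⟩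
    simpa using comp_periods_eigen hf ha ((Int.castAddHom ℂ).comp (b.coord i).toAddMonoidHom)
  have hr : r ≤ 2 := by
    have h := linearIndependent_le_span' φ hli _ hspan
    simp only [Cardinal.mk_fintype, Fintype.card_fin, Finset.coe_sort_coe, Fintype.card_coe,
      Nat.cast_le] at h
    exact h.trans Finset.card_le_two
  let w : ℕ → periods f := fun i => if h : i < r then b ⟨i, h⟩ else 0
  refine ⟨w 0, (w 0).2, w 1, (w 1).2, fun x hx => ?_⟩
  have hrepr := congrArg Subtype.val (b.sum_repr ⟨x, hx⟩)
  rw [AddSubgroup.val_finsetSum] at hrepr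
  rw [show x = _ from hrepr.symm]
  refine AddSubgroup.sum_mem _ fun i _ => ?_
  rw [AddSubgroup.coe_zsmul]
  refine AddSubgroup.zsmul_mem _ (AddSubgroup.subset_closure ?_) _
  have hi := i.2
  obtain h | h : (i : ℕ) = 0 ∨ (i : ℕ) = 1 := by omega
  · refine Or.inl ?_
    have : w 0 = b i := by
      simp only [w, dif_pos (show 0 < r by omega)]
      exact congrArg b (Fin.ext h.symm)
    rw [this]
  · refine Or.inr ?_
    have : w 1 = b i := by
      simp only [w, dif_pos (show 1 < r by omega)]
      exact congrArg b (Fin.ext h.symm)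
    rw [Set.mem_singleton_iff, this]

end FA.PeriodLattice

end
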