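import Fermat.Agent.PeriodLattice.Reflect
import Fermat.Agent.JTorsion.Eigen

/-!
# The lattice of periods, and its least positive real element after scaling by `2πi`
-/

set_option autoImplicit false

noncomputable section

namespace FA.PeriodLattice

open Complex CongruenceSubgroup ModularCurve FA.Period FA.ManinDrinfeld FA.Deform
open scoped Real MatrixGroups ComplexConjugate

variable {N : ℕ} [NeZero N] {f : CuspForm (Gamma0 N) 2} {a : ℕ → ℤ}

/-- The real numbers among `2πi` times the periods of `f`. -/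
def realPeriods (f : CuspForm (Gamma0 N) 2) : AddSubgroup ℝ :=
  ((periods f).map (AddMonoidHom.mulLeft (2 * (π : ℂ) * I))).comap Complex.ofRealHom.toAddMonoidHom

omit [NeZero N] in
theorem mem_realPeriods {x : ℝ} :
    x ∈ realPeriods f ↔ ∃ γ, 2 * (π : ℂ) * I * periodMap N f γ = x := by
  simp [realPeriods, periods]

/-- **The periods form a lattice**: two generators, independent over `ℝ`. -/
theorem exists_lattice_basis (hf : f.IsNormalizedEigenform)
    (ha : ∀ n, ModularFormClass.qCoeff f n = (a n : ℂ)) :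
    ∃ w₁ w₂ : ℂ, (∀ x y : ℝ, (x : ℂ) * w₁ + (y : ℂ) * w₂ = 0 → x = 0 ∧ y = 0) ∧
      periods f = AddSubgroup.closure ({w₁, w₂} : Set ℂ) := by
  obtain ⟨w₁, h1, w₂, h2, hle⟩ := exists_two_generators hf ha
  refine ⟨w₁, w₂, ?_, le_antisymm hle ((AddSubgroup.closure_le _).mpr ?_)⟩
  · by_contra hdep
    push Not at hdep
    obtain ⟨x, y, hxy, hne⟩ := hdep
    -- both generators are real multiples of one complex number
    obtain ⟨c, hc, ⟨r₁, hr₁⟩, r₂, hr₂⟩ : ∃ c : ℂ, c ≠ 0 ∧ (∃ r : ℝ, w₁ = r * c) ∧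
        ∃ r : ℝ, w₂ = r * c := by
      by_cases hx : x = 0
      · have hy := hne hx
        rw [hx, ofReal_zero, zero_mul, zero_add, mul_eq_zero, ofReal_eq_zero] at hxy
        rcases eq_or_ne w₁ 0 with h0 | h0
        · exact ⟨1, one_ne_zero, ⟨0, by simp [h0]⟩, 0, by simp [hxy.resolve_left hy]⟩
        · exact ⟨w₁, h0, ⟨1, by simp⟩, 0, by simp [hxy.resolve_left hy]⟩
      · rcases eq_or_ne w₂ 0 with h0 | h0
        · have hw : w₁ = 0 := by simpa [h0, hx] using hxy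
          exact ⟨1, one_ne_zero, ⟨0, by simp [hw]⟩, 0, by simp [h0]⟩
        · refine ⟨w₂, h0, ⟨-(y / x), ?_⟩, 1, by simp⟩
          have hx' : (x : ℂ) ≠ 0 := ofReal_ne_zero.mpr hx
          push_cast
          field_simp
          linear_combination hxy
    obtain ⟨w, hw, hw'⟩ := exists_period_not_real hf.ne_zero hc
    refine hw' ?_
    obtain ⟨m, n, rfl⟩ := AddSubgroup.mem_closure_pair.mp (hle hw)
    have e : (m • w₁ + n • w₂) / c = (((m : ℝ) * r₁ + n * r₂ : ℝ) : ℂ) := by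
      rw [hr₁, hr₂, div_eq_iff hc, zsmul_eq_mul, zsmul_eq_mul]
      push_cast
      ring
    rw [e, Complex.ofReal_im]
  · rintro z (rfl | rfl)
    exacts [h1, h2]

/-- A non-trivial subgroup of `ℤ²` on the kernel of a non-zero linear form is cyclic. -/
theorem exists_proportional {r₁ r₂ : ℝ} (hne : r₁ ≠ 0 ∨ r₂ ≠ 0) {m₀ n₀ : ℤ}
    (h₀ : (m₀ : ℝ) * r₁ + n₀ * r₂ = 0) (h₀' : m₀ ≠ 0 ∨ n₀ ≠ 0) :
    ∃ p q : ℤ, (p : ℝ) * r₁ + q * r₂ = 0 ∧
      ∀ m n : ℤ, (m : ℝ) * r₁ + n * r₂ = 0 → ∃ k : ℤ, m = k * p ∧ n = k * q := by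
  obtain ⟨p, q, hpq, hp, hq⟩ := Int.exists_gcd_one (m := m₀) (n := n₀) (by
    refine Nat.pos_of_ne_zero fun h => ?_
    rw [Int.gcd_eq_zero_iff] at h
    exact h₀'.elim (fun h' => h' h.1) fun h' => h' h.2)
  set g : ℤ := ((Int.gcd m₀ n₀ : ℕ) : ℤ)
  have hg : (g : ℝ) ≠ 0 := by
    intro h
    have h' : g = 0 := Int.cast_eq_zero.mp h
    rw [h', mul_zero] at hp hq
    exact h₀'.elim (fun x => x hp) fun x => x hq
  have hrel : (p : ℝ) * r₁ + q * r₂ = 0 := by
    refine mul_right_cancel₀ hg ?_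
    rw [hp, hq] at h₀
    push_cast at h₀
    linear_combination h₀
  refine ⟨p, q, hrel, fun m n h => ?_⟩
  obtain ⟨u, v, huv⟩ := Int.isCoprime_iff_gcd_eq_one.mpr hpq
  have hdet : (m : ℝ) * q - n * p = 0 := by
    rcases hne with h1 | h1
    · exact (mul_eq_zero.mp (show ((m : ℝ) * q - n * p) * r₁ = 0 by
        linear_combination (q : ℝ) * h - (n : ℝ) * hrel)).resolve_right h1
    · exact (mul_eq_zero.mp (show ((m : ℝ) * q - n * p) * r₂ = 0 by
        linear_combination (m : ℝ) * hrel - (p : ℝ) * h)).resolve_right h1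
  have hdet' : m * q - n * p = 0 := by exact_mod_cast hdet
  exact ⟨u * m + v * n, by linear_combination (-m) * huv + v * hdet',
    by linear_combination (-n) * huv - u * hdet'⟩

/-- The real numbers in a group generated by two numbers independent over `ℝ` have a least
positive element, unless all are zero. -/
theorem exists_isLeast_of_closure {Λ : AddSubgroup ℂ} {w₁ w₂ : ℂ}
    (hind : ∀ x y : ℝ, (x : ℂ) * w₁ + (y : ℂ) * w₂ = 0 → x = 0 ∧ y = 0)
    (hΛ : Λ = AddSubgroup.closure ({w₁, w₂} : Set ℂ)) {x₀ : ℝ} (hx₀ : x₀ ≠ 0)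
    (hmem₀ : (x₀ : ℂ) ∈ Λ) : ∃ Ω : ℝ, IsLeast {x : ℝ | (x : ℂ) ∈ Λ ∧ 0 < x} Ω := by
  have hmem : ∀ x : ℝ, (x : ℂ) ∈ Λ ↔ ∃ m n : ℤ,
      (m : ℝ) * w₁.im + n * w₂.im = 0 ∧ x = m * w₁.re + n * w₂.re := by
    intro x
    rw [hΛ, AddSubgroup.mem_closure_pair]
    constructor
    · rintro ⟨m, n, h⟩
      have hre := congrArg Complex.re h
      have him := congrArg Complex.im h
      simp at hre him
      exact ⟨m, n, him, hre.symm⟩
    · rintro ⟨m, n, h1, rfl⟩
      exact ⟨m, n, Complex.ext (by simp) (by simp [h1])⟩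
  have hne : w₁.im ≠ 0 ∨ w₂.im ≠ 0 := by
    by_contra hh
    push Not at hh
    by_cases h : w₂.re = 0
    · exact one_ne_zero (hind 0 1 (Complex.ext (by simp [h]) (by simp [hh.2]))).2
    · exact h (hind w₂.re (-w₁.re)
        (Complex.ext (by simp; ring) (by simp [hh.1, hh.2]))).1
  obtain ⟨m₀, n₀, h₀, h₀'⟩ := (hmem x₀).mp hmem₀
  obtain ⟨p, q, hrel, hall⟩ := exists_proportional hne h₀ (by
    by_contra hh
    push Not at hh
    rw [hh.1, hh.2] at h₀'
    push_cast at h₀'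
    exact hx₀ (by linarith))
  set Ω₀ := (p : ℝ) * w₁.re + q * w₂.re with hΩ₀
  have hmult : ∀ x : ℝ, (x : ℂ) ∈ Λ → ∃ k : ℤ, x = k * Ω₀ := fun x hx => by
    obtain ⟨m, n, him, rfl⟩ := (hmem x).mp hx
    obtain ⟨k, rfl, rfl⟩ := hall m n him
    exact ⟨k, by push_cast; rw [hΩ₀]; ring⟩
  have hΩ₀ne : Ω₀ ≠ 0 := by
    intro h0
    obtain ⟨k, hk⟩ := hmult x₀ hmem₀
    rw [h0, mul_zero] at hk
    exact hx₀ hk
  have hΩ₀mem : ((Ω₀ : ℝ) : ℂ) ∈ Λ := (hmem _).mpr ⟨p, q, hrel, rfl⟩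
  refine ⟨|Ω₀|, ⟨?_, abs_pos.mpr hΩ₀ne⟩, fun x ⟨hx, hx0⟩ => ?_⟩
  · rcases abs_choice Ω₀ with h | h <;> rw [h]
    · exact hΩ₀mem
    · rw [Complex.ofReal_neg]; exact neg_mem hΩ₀mem
  · obtain ⟨k, rfl⟩ := hmult x hx
    have hk : k ≠ 0 := by rintro rfl; simp at hx0
    calc |Ω₀| ≤ |(k : ℝ)| * |Ω₀| :=
          le_mul_of_one_le_left (abs_nonneg _) (by exact_mod_cast Int.one_le_abs hk)
      _ = (k : ℝ) * Ω₀ := by rw [← abs_mul, abs_of_pos hx0]

/-- Multiples of the periods by a non-zero number have the analogous property. -/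
theorem exists_isLeast_scaled (hf : f.IsNormalizedEigenform)
    (ha : ∀ n, ModularFormClass.qCoeff f n = (a n : ℂ)) {c : ℂ} (hc : c ≠ 0)
    (hne : ∃ x : ℝ, x ≠ 0 ∧ (x : ℂ) ∈ (periods f).map (AddMonoidHom.mulLeft c)) :
    ∃ Ω : ℝ,
      IsLeast {x : ℝ | (x : ℂ) ∈ (periods f).map (AddMonoidHom.mulLeft c) ∧ 0 < x} Ω := by
  obtain ⟨w₁, w₂, hind, hΛ⟩ := exists_lattice_basis hf ha
  obtain ⟨x₀, hx₀, hmem₀⟩ := hne
  refine exists_isLeast_of_closure (w₁ := c * w₁) (w₂ := c * w₂) (fun x y h => hind x y ?_) ?_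
    hx₀ hmem₀
  · exact (mul_eq_zero.mp (show c * ((x : ℂ) * w₁ + y * w₂) = 0 by
      linear_combination h)).resolve_left hc
  · rw [hΛ, AddMonoidHom.map_closure, Set.image_pair]
    rfl

/-- **The least positive real period exists**. -/
theorem exists_isLeast_realPeriod (hf : f.IsNormalizedEigenform)
    (ha : ∀ n, ModularFormClass.qCoeff f n = (a n : ℂ)) :
    ∃ Ω : ℝ, IsLeast {x : ℝ | x ∈ realPeriods f ∧ 0 < x} Ω := by
  refine exists_isLeast_scaled hf ha (by simp [Real.pi_ne_zero]) ?_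
  obtain ⟨w, hw, hwi⟩ := exists_period_not_real hf.ne_zero one_ne_zero
  rw [div_one] at hwi
  refine ⟨-(4 * π * w.im), by simp [Real.pi_ne_zero, hwi], w - conj w,
    sub_mem hw (conj_mem_periods ha hw), ?_⟩
  rw [AddMonoidHom.coe_mulLeft, Complex.sub_conj]
  push_cast
  linear_combination (4 * (π : ℂ) * w.im) * I_mul_I

/-- The imaginary numbers among `2πi` times the periods of `f`, divided by `i`. -/
def imagPeriods (f : CuspForm (Gamma0 N) 2) : AddSubgroup ℝ :=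
  ((periods f).map (AddMonoidHom.mulLeft (2 * (π : ℂ)))).comap Complex.ofRealHom.toAddMonoidHom

omit [NeZero N] in
theorem mem_imagPeriods {x : ℝ} :
    x ∈ imagPeriods f ↔ ∃ γ, 2 * (π : ℂ) * I * periodMap N f γ = x * I := by
  rw [imagPeriods]
  simp only [AddSubgroup.mem_comap, AddSubgroup.mem_map, periods, AddMonoidHom.mem_range,
    exists_exists_eq_and]
  refine exists_congr fun γ => ⟨fun h => ?_, fun h => ?_⟩
  · rw [mul_right_comm, show 2 * (π : ℂ) * periodMap N f γ = x from h]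
  · refine mul_right_cancel₀ I_ne_zero (Eq.trans ?_ h)
    rw [AddMonoidHom.coe_mulLeft, mul_right_comm]

/-- **The least positive imaginary period exists**. -/
theorem exists_isLeast_imagPeriod (hf : f.IsNormalizedEigenform)
    (ha : ∀ n, ModularFormClass.qCoeff f n = (a n : ℂ)) :
    ∃ Ω : ℝ, IsLeast {x : ℝ | x ∈ imagPeriods f ∧ 0 < x} Ω := by
  refine exists_isLeast_scaled hf ha (by simp [Real.pi_ne_zero]) ?_
  obtain ⟨w, hw, hwi⟩ := exists_period_not_real hf.ne_zero I_ne_zero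
  have hwr : w.re ≠ 0 := fun h => hwi (by simp [Complex.div_I, h])
  refine ⟨4 * π * w.re, by simp [Real.pi_ne_zero, hwr], w + conj w,
    add_mem hw (conj_mem_periods ha hw), ?_⟩
  rw [AddMonoidHom.coe_mulLeft, Complex.add_conj]
  push_cast
  ring

omit [NeZero N] in
/-- The real periods are the multiples of the least positive one. -/
theorem exists_eq_intCast_mul {Ω : ℝ} (hΩ : IsLeast {x : ℝ | x ∈ realPeriods f ∧ 0 < x} Ω)
    {x : ℝ} (hx : x ∈ realPeriods f) : ∃ m : ℤ, x = m * Ω := by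
  have h := AddSubgroup.cyclic_of_min hΩ
  rw [h, AddSubgroup.mem_closure_singleton] at hx
  obtain ⟨m, hm⟩ := hx
  exact ⟨m, by rw [← hm, zsmul_eq_mul]⟩

/-- **Manin's integrality**: `(1 + p - a_p) · 2π ∫₀^∞ f(it) dt` is a multiple of `Ω`. -/
theorem exists_eigen_mul_integral (hf : f.IsNormalizedEigenform)
    (ha : ∀ n, ModularFormClass.qCoeff f n = (a n : ℂ)) {Ω : ℝ}
    (hΩ : IsLeast {x : ℝ | x ∈ realPeriods f ∧ 0 < x} Ω) {p : ℕ} (hp : p.Prime) (hpN : ¬ p ∣ N) :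
    ∃ m : ℤ, (1 + (p : ℂ) - a p) * (2 * π * ∫ t in Set.Ioi (0 : ℝ),
      f (UpperHalfPlane.ofComplex (I * (t : ℂ)))) = m * Ω := by
  have : NeZero p := ⟨hp.ne_zero⟩
  obtain ⟨γ, hγ⟩ := eigen_mul_toZero_mem_periods (N := N) hp hpN
  have h := hγ f (a p : ℂ) (by rw [FA.JTorsion.heckeT_eigen hf hp hpN, qLin_apply, ha p])
  have hz := toZero_eq_integral f
  set J := ∫ t in Set.Ioi (0 : ℝ), f (UpperHalfPlane.ofComplex (I * (t : ℂ)))
  set X := (1 + (p : ℂ) - a p) * (2 * π * J) with hX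
  have hXγ : 2 * (π : ℂ) * I * periodMap N f γ = X := by
    rw [← h, hz, hX]
    linear_combination -((1 + (p : ℂ) - a p) * (2 * π * J)) * I_mul_I
  have hXreal : X = (X.re : ℂ) := by
    have hJ : conj J = J := by
      have hc := conj_toZero ha
      rw [hz, map_mul, map_neg, conj_I] at hc
      linear_combination (-I) * hc + (conj J - J) * I_mul_I
    have hc : conj X = X := by
      rw [hX]
      simp [map_ofNat, hJ]
    exact (Complex.conj_eq_iff_re.mp hc).symm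
  have hmem : X.re ∈ realPeriods f := mem_realPeriods.mpr ⟨γ, hXγ.trans hXreal⟩
  obtain ⟨m, hm⟩ := exists_eq_intCast_mul hΩ hmem
  exact ⟨m, by rw [hXreal, hm]; push_cast; rfl⟩

end FA.PeriodLattice

end
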