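import Fermat.Agent.PeriodLattice.RankTwo
import Fermat.Agent.ManinDrinfeld.Integral

/-!
# The periods of a form with real coefficients

Complex conjugation preserves the periods, they are on no real line, and the integral along the
imaginary axis is real.
-/

set_option autoImplicit false

noncomputable section

namespace FA.PeriodLattice

open UpperHalfPlane hiding I
open Complex CongruenceSubgroup Filter ModularCurve ModularCurve.Period FA.Period FA.ManinDrinfeld
open scoped MatrixGroups Topology ComplexConjugate

variable {N : ℕ} [NeZero N] {f : CuspForm (Gamma0 N) 2} {a : ℕ → ℤ}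

/-- A form with real coefficients commutes with the reflection. -/
theorem apply_reflect (ha : ∀ n, ModularFormClass.qCoeff f n = (a n : ℂ)) (τ : ℍ) :
    f (reflect τ) = conj (f τ) := by
  have hQ := isQFun_of_mem (coe_mem_cuspForms f).1
  have h1 := hasSum_qExpansion one_pos hQ.periodic hQ.mdiff hQ.bdd (reflect τ)
  have h2 := (hasSum_qExpansion one_pos hQ.periodic hQ.mdiff hQ.bdd τ).map
    (starRingEnd ℂ).toAddMonoidHom Complex.continuous_conj
  refine h1.unique (h2.congr_fun fun n => ?_)
  simp only [Function.comp_apply, RingHom.toAddMonoidHom_eq_coe, AddMonoidHom.coe_coe, smul_eq_mul,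
    map_mul, map_pow]
  rw [show (qExpansion 1 f).coeff n = (a n : ℂ) from ha n, map_intCast]
  refine congrArg (fun q => (a n : ℂ) * q ^ n) ?_
  rw [show ((reflect τ : ℍ) : ℂ) = -conj (τ : ℂ) from rfl, Function.Periodic.qParam,
    Function.Periodic.qParam, ← Complex.exp_conj]
  simp [map_ofNat]

/-- The primitive vanishing at `i∞` anticommutes with the reflection. -/
theorem prim_reflect (ha : ∀ n, ModularFormClass.qCoeff f n = (a n : ℂ)) (τ : ℍ) :
    prim f (reflect τ) = -conj (prim f τ) := by
  have hF := isPrimitive_reflPrim (isPrimitive_prim f)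
  rw [show (fun τ => conj (f (reflect τ))) = ⇑f from funext fun τ => by
    rw [apply_reflect ha τ, Complex.conj_conj]] at hF
  have hF0 : Tendsto (reflPrim (prim f)) atImInfty (𝓝 0) := by
    have h0 := ((Complex.continuous_conj.tendsto _).comp
      ((tendsto_prim f).comp tendsto_reflect)).neg
    simp only [map_zero, neg_zero] at h0
    exact h0
  have h := congrFun (primitive_unique hF (isPrimitive_prim f) hF0 (tendsto_prim f)) τ
  rw [← h]
  simp [reflPrim]

/-- Complex conjugation preserves the periods. -/
theorem conj_mem_periods (ha : ∀ n, ModularFormClass.qCoeff f n = (a n : ℂ)) {w : ℂ}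
    (hw : w ∈ periods f) : conj w ∈ periods f := by
  obtain ⟨γ, rfl⟩ := hw
  refine ⟨-Additive.ofMul (jConjGamma0 N γ.toMul), ?_⟩
  rw [map_neg, periodMap_apply f (isPrimitive_prim f) (jConjGamma0 N γ.toMul)
    (reflect UpperHalfPlane.I), show γ = Additive.ofMul γ.toMul from rfl,
    periodMap_apply f (isPrimitive_prim f) γ.toMul UpperHalfPlane.I, jConjGamma0_coe,
    toMul_ofMul, ← reflect_smul, prim_reflect ha, prim_reflect ha, map_sub]
  ring

/-- The periods of a non-zero form lie on no real line. -/
theorem exists_period_not_real (hf : f ≠ 0) {c : ℂ} (hc : c ≠ 0) :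
    ∃ w ∈ periods f, (w / c).im ≠ 0 := by
  by_contra hall
  push Not at hall
  refine hf ?_
  have h := const_of_real_periods (N := N) ((isPrimitive_prim f).const_smul c⁻¹)
    (fun γ hγ => ⟨(periodMap N f (Additive.ofMul ⟨γ, hγ⟩) / c).re, fun τ => by
      have h0 := hall _ ⟨Additive.ofMul ⟨γ, hγ⟩, rfl⟩
      rw [periodMap_apply f (isPrimitive_prim f) ⟨γ, hγ⟩ τ] at h0 ⊢
      simp only [Pi.smul_apply, smul_eq_mul]
      apply Complex.ext
      · rw [Complex.ofReal_re, div_eq_inv_mul, mul_sub]
      · rw [Complex.ofReal_im, ← mul_sub, ← div_eq_inv_mul]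
        exact h0⟩)
    (fun δ => by
      obtain ⟨L, hL⟩ := exists_tendsto_comp_smul (coe_mem_cuspForms f) (isPrimitive_prim f) δ
      exact ⟨c⁻¹ * L, hL.const_mul c⁻¹⟩)
  ext τ
  simpa [hc] using congrFun h τ

/-- The integral along the imaginary axis is real. -/
theorem conj_toZero (ha : ∀ n, ModularFormClass.qCoeff f n = (a n : ℂ)) :
    conj (toZero f) = -toZero f := by
  have h1 := tendsto_toZero f (isPrimitive_prim f) (tendsto_prim f)
  have h2 := (((Complex.continuous_conj.tendsto _).comp (h1.comp tendsto_reflect))).neg
  have h3 : -conj (toZero f) = toZero f := by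
    refine tendsto_nhds_unique (h2.congr fun w => ?_) h1
    rw [Function.comp_apply, Function.comp_apply, ← prim_reflect ha,
      reflect_smul, show jConjSL ModularGroup.S = ModularGroup.S⁻¹ by decide,
      show reflect (reflect w) = w from UpperHalfPlane.ext (by simp [reflect])]
    refine congrArg (prim f) ?_
    rw [show ModularGroup.S⁻¹ = -ModularGroup.S by decide, ModularGroup.SL_neg_smul]
  linear_combination -h3

end FA.PeriodLattice

end
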