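import Fermat.Agent.ManinDrinfeld.Cusps
import Fermat.Agent.PeriodLattice.RealPeriod
import Fermat.Agent.Twists.FrickeTwist

/-!
# Birch's lemma: the central values of quadratic twists are rational multiples of periods

For a character `ψ` of square one modulo `q` with no smaller modulus and Gauss sum `τ`,
`τ ∫_{i∞}^0 f_ψ = ∑_j ψ(j) ∫_{i∞}^{j/q} f`, and the integrals on the right have multiples among the
periods. Complex conjugation decides between the real and the imaginary periods.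
-/

set_option autoImplicit false

noncomputable section

namespace FA.PeriodLattice

open UpperHalfPlane hiding I
open Complex CongruenceSubgroup Filter ModularCurve FA.Period FA.ManinDrinfeld FA.Deform FA.Twists
open FA.LTReduce (twistWeight sum_twistWeight)
open FA.Weight1 (shiftX mR)
open scoped Real MatrixGroups Topology ComplexConjugate

variable {N : ℕ} [NeZero N] {f : CuspForm (Gamma0 N) 2} {a : ℕ → ℤ}
  {q : ℕ} [NeZero q] {ψ : DirichletCharacter ℂ q}

/-- The Gauss sum. -/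
def gaussTau (ψ : DirichletCharacter ℂ q) : ℂ := ∑ x : ZMod q, ψ x * ZMod.stdAddChar x

theorem exists_int_apply (hψ : ∀ u : (ZMod q)ˣ, ψ u * ψ u = 1) (x : ZMod q) :
    ∃ k : ℤ, ψ x = (k : ℂ) := by
  by_cases hx : IsUnit x
  · obtain ⟨u, rfl⟩ := hx
    rcases mul_self_eq_one_iff.mp (hψ u) with h | h
    · exact ⟨1, by rw [h, Int.cast_one]⟩
    · exact ⟨-1, by rw [h]; norm_num⟩
  · exact ⟨0, by rw [ψ.map_nonunit hx, Int.cast_zero]⟩

theorem twistWeight_one (ψ : DirichletCharacter ℂ q) : twistWeight ψ 1 = ψ (-1) * gaussTau ψ := by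
  rw [twistWeight, gaussTau, Finset.mul_sum]
  refine Fintype.sum_equiv (Equiv.neg (ZMod q)) _ _ fun x => ?_
  rw [Equiv.neg_apply, one_mul, ← mul_assoc, ← map_mul, neg_one_mul, neg_neg]

section nondegenerate

variable (hψ : ∀ u : (ZMod q)ˣ, ψ u * ψ u = 1)
  (hnd : ∀ p : ℕ, p.Prime → p ∣ q → ∃ n : ℕ, ((q / p : ℕ) : ℤ) ∣ (n : ℤ) - 1 ∧
    ψ (n : ZMod q) = -1)

include hψ hnd

theorem twistWeight_eq_mul (j : ZMod q) : twistWeight ψ j = ψ j * twistWeight ψ 1 := by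
  by_cases hj : IsUnit j
  · obtain ⟨u, rfl⟩ := hj
    have h := twistWeight_mul_unit hψ 1 u
    rwa [one_mul] at h
  · rw [twistWeight_eq_zero hψ hnd hj, ψ.map_nonunit hj, zero_mul]

theorem twistWeight_one_mul_gaussTau : twistWeight ψ 1 * gaussTau ψ = q := by
  have h := sum_twistWeight ψ (1 : ZMod q)
  rw [map_one] at h
  simp only [mul_one] at h
  have hq : (q : ℂ) ≠ 0 := NeZero.ne _
  rw [show ∑ j : ZMod q, twistWeight ψ j * ZMod.stdAddChar j =
      twistWeight ψ 1 * gaussTau ψ by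
    rw [gaussTau, Finset.mul_sum]
    exact Finset.sum_congr rfl fun j _ => by rw [twistWeight_eq_mul hψ hnd j]; ring] at h
  field_simp at h
  exact h

theorem gaussTau_sq : gaussTau ψ ^ 2 = ψ (-1) * q := by
  have h := twistWeight_one_mul_gaussTau hψ hnd
  rw [twistWeight_one] at h
  have h1 : ψ (-1) * ψ (-1) = 1 := by rw [← map_mul, neg_one_mul, neg_neg, map_one]
  linear_combination ψ (-1) * h - gaussTau ψ ^ 2 * h1

end nondegenerate

theorem conj_gaussTau (hψ : ∀ u : (ZMod q)ˣ, ψ u * ψ u = 1) :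
    conj (gaussTau ψ) = ψ (-1) * gaussTau ψ := by
  rw [← twistWeight_one, twistWeight, gaussTau, map_sum]
  refine Finset.sum_congr rfl fun x _ => ?_
  obtain ⟨k, hk⟩ := exists_int_apply hψ x
  rw [map_mul, hk, map_intCast, one_mul, AddChar.map_neg_eq_conj]

omit [NeZero N] in
theorem isPrimitive_translate {F : ℍ → ℂ} {h : ℍ → ℂ} (hF : IsPrimitive F h) (r : ℝ) :
    IsPrimitive (fun z : ℍ => F (r +ᵥ z)) (fun z => h (r +ᵥ z)) := by
  intro τ
  have h1 : HasDerivAt (F ∘ ofComplex) (h (r +ᵥ τ)) ((τ : ℂ) + r) := by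
    rw [add_comm, ← UpperHalfPlane.coe_vadd]
    exact hF _
  have h2 := h1.comp_add_const (τ : ℂ) (r : ℂ)
  refine h2.congr_of_eventuallyEq ?_
  filter_upwards [isOpen_upperHalfPlaneSet.mem_nhds τ.im_pos] with z hz
  have hz' : 0 < (z + (r : ℂ)).im := by simpa using hz
  simp only [Function.comp_apply, ofComplex_apply_of_im_pos hz, ofComplex_apply_of_im_pos hz']
  exact congrArg F (UpperHalfPlane.ext (add_comm _ _))

/-- **Birch's lemma**. -/
theorem gaussTau_mul_toZero (ha : ∀ n, ModularFormClass.qCoeff f n = (a n : ℂ))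
    (hψ : ∀ u : (ZMod q)ˣ, ψ u * ψ u = 1)
    (hnd : ∀ p : ℕ, p.Prime → p ∣ q → ∃ n : ℕ, ((q / p : ℕ) : ℤ) ∣ (n : ℤ) - 1 ∧
      ψ (n : ZMod q) = -1)
    [NeZero (N * q ^ 2)] (g : CuspForm (Gamma0 (N * q ^ 2)) 2)
    (hg : ∀ n, ModularFormClass.qCoeff g n = ψ (n : ZMod q) * (a n : ℂ)) (L : ZMod q → ℂ)
    (hL : ∀ j : ZMod q, Tendsto (fun t : ℝ => prim f (ofComplex
      ((((j.val : ℚ) / q : ℚ) : ℂ) + I * (t : ℂ)))) (𝓝[>] 0) (𝓝 (L j))) :
    gaussTau ψ * toZero g = ∑ j : ZMod q, ψ j * L j := by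
  classical
  have hm := coe_mem_cuspForms f
  have hgf : ⇑g = twistTwo ψ ⇑f := by
    have e : g = toCuspForm' (twistTwo ψ ⇑f) (twistTwo_mem hm hψ) :=
      qLin_injective (funext fun n => by
        rw [qLin_apply, qLin_apply, hg, ← ha n]
        exact (qExp_twistTwo hm hψ n).symm)
    rw [e]
    rfl
  let r : ZMod q → ℚ := fun j => (j.val : ℚ) / q
  set G : ℍ → ℂ := fun z => ∑ j : ZMod q,
    (q : ℂ)⁻¹ * twistWeight ψ j * prim f (((r j : ℚ) : ℝ) +ᵥ z) with hG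
  have hGp : IsPrimitive G ⇑g := by
    intro τ
    have hval : g τ = ∑ j : ZMod q,
        (q : ℂ)⁻¹ * twistWeight ψ j * f (((r j : ℚ) : ℝ) +ᵥ τ) := by
      rw [hgf, twistTwo, Pi.smul_apply, smul_eq_mul, Finset.sum_apply, Finset.mul_sum]
      refine Finset.sum_congr rfl fun j _ => ?_
      rw [Pi.smul_apply, smul_eq_mul, slash_shiftX_two_apply, mul_assoc]
      simp [r, -ZMod.natCast_val]
    rw [hval]
    have hfun : G ∘ ofComplex = fun z => ∑ j : ZMod q, (q : ℂ)⁻¹ * twistWeight ψ j *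
        ((fun w : ℍ => prim f (((r j : ℚ) : ℝ) +ᵥ w)) ∘ ofComplex) z := rfl
    rw [hfun]
    exact HasDerivAt.fun_sum fun j _ =>
      (isPrimitive_translate (isPrimitive_prim f) _ τ).const_mul _
  have hG0 : Tendsto G atImInfty (𝓝 0) := by
    have h : Tendsto G atImInfty (𝓝 (∑ j : ZMod q, (q : ℂ)⁻¹ * twistWeight ψ j * 0)) := by
      refine tendsto_finsetSum _ fun j _ => (((tendsto_prim f).comp ?_)).const_mul _
      refine tendsto_comap_iff.mpr ?_
      have him : Tendsto UpperHalfPlane.im atImInfty atTop := tendsto_comap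
      exact him.congr fun z => (UpperHalfPlane.vadd_im _ z).symm
    simpa using h
  -- the limit at `0` along the imaginary axis
  have hpath : Tendsto (fun t : ℝ => ofComplex (I * ((t⁻¹ : ℝ) : ℂ))) (𝓝[>] 0) atImInfty := by
    refine tendsto_comap_iff.mpr (tendsto_inv_nhdsGT_zero.congr' ?_)
    filter_upwards [self_mem_nhdsWithin] with t (ht : 0 < t)
    rw [Function.comp_apply, ofComplex_apply_of_im_pos (by simpa using ht)]
    simp [UpperHalfPlane.im]
  have hlim : Tendsto (fun t : ℝ => G (ModularGroup.S • ofComplex (I * ((t⁻¹ : ℝ) : ℂ))))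
      (𝓝[>] 0) (𝓝 (∑ j : ZMod q, (q : ℂ)⁻¹ * twistWeight ψ j * L j)) := by
    refine tendsto_finsetSum _ fun j _ => ?_
    refine (((hL j).const_mul ((q : ℂ)⁻¹ * twistWeight ψ j))).congr' ?_
    filter_upwards [self_mem_nhdsWithin] with t (ht : 0 < t)
    refine congrArg (fun z => (q : ℂ)⁻¹ * twistWeight ψ j * prim f z) (UpperHalfPlane.ext ?_)
    simp only [r]
    rw [ofComplex_apply_of_im_pos (by simpa using ht), UpperHalfPlane.coe_vadd,
      FA.ManinDrinfeld.coe_S_smul, ofComplex_apply_of_im_pos (by simpa using ht)]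
    simp [mul_comm]
  have hval := tendsto_nhds_unique ((tendsto_toZero g hGp hG0).comp hpath) hlim
  have hτ := twistWeight_one_mul_gaussTau hψ hnd
  have hq : (q : ℂ) ≠ 0 := NeZero.ne _
  rw [hval, Finset.mul_sum]
  refine Finset.sum_congr rfl fun j _ => ?_
  rw [twistWeight_eq_mul hψ hnd]
  field_simp
  linear_combination ψ j * L j * hτ

/-- A multiple of `τ ∫_{i∞}^0 f_ψ` is a period of `f`. -/
theorem exists_smul_gaussTau_mul_toZero (ha : ∀ n, ModularFormClass.qCoeff f n = (a n : ℂ))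
    (hψ : ∀ u : (ZMod q)ˣ, ψ u * ψ u = 1)
    (hnd : ∀ p : ℕ, p.Prime → p ∣ q → ∃ n : ℕ, ((q / p : ℕ) : ℤ) ∣ (n : ℤ) - 1 ∧
      ψ (n : ZMod q) = -1)
    [NeZero (N * q ^ 2)] (g : CuspForm (Gamma0 (N * q ^ 2)) 2)
    (hg : ∀ n, ModularFormClass.qCoeff g n = ψ (n : ZMod q) * (a n : ℂ)) :
    ∃ n : ℕ, 0 < n ∧ (n : ℂ) * (gaussTau ψ * toZero g) ∈ periods f := by
  classical
  choose δ n γ hn hL using fun j : ZMod q =>
    exists_tendsto_vertical (N := N) (((j.val : ℚ) / q : ℚ))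
  refine ⟨∏ j : ZMod q, n j, Finset.prod_pos fun j _ => hn j, ?_⟩
  rw [gaussTau_mul_toZero ha hψ hnd g hg (fun j => toCusp (δ j) f) fun j => (hL j f).2,
    Finset.mul_sum]
  refine AddSubgroup.sum_mem _ fun j _ => ?_
  obtain ⟨k, hk⟩ := exists_int_apply hψ j
  obtain ⟨m, hm⟩ : n j ∣ ∏ i : ZMod q, n i := Finset.dvd_prod_of_mem _ (Finset.mem_univ j)
  have e : ((∏ i : ZMod q, n i : ℕ) : ℂ) * (ψ j * toCusp (δ j) f) =
      ((k * m : ℤ) : ℂ) * periodMap N f (γ j) := by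
    rw [hm, ← (hL j f).1, hk]
    push_cast
    ring
  rw [e, ← zsmul_eq_mul]
  exact AddSubgroup.zsmul_mem _ (show periodMap N f (γ j) ∈ periods f from ⟨γ j, rfl⟩) _

theorem rat_mul_of_mul_eq {x Ω : ℂ} {n : ℕ} (hn : 0 < n) {m : ℤ} (h : (n : ℂ) * x = m * Ω) :
    ∃ r : ℚ, x = r * Ω := by
  refine ⟨(m : ℚ) / n, ?_⟩
  have hn' : (n : ℂ) ≠ 0 := Nat.cast_ne_zero.mpr hn.ne'
  push_cast
  field_simp
  linear_combination h

/-- **Rationality of the twisted central values**, `√q · 2π ∫₀^∞ f_ψ(it) dt`. -/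
theorem exists_rat_twist_integral (ha : ∀ n, ModularFormClass.qCoeff f n = (a n : ℂ))
    (hψ : ∀ u : (ZMod q)ˣ, ψ u * ψ u = 1)
    (hnd : ∀ p : ℕ, p.Prime → p ∣ q → ∃ n : ℕ, ((q / p : ℕ) : ℤ) ∣ (n : ℤ) - 1 ∧
      ψ (n : ZMod q) = -1)
    [NeZero (N * q ^ 2)] (g : CuspForm (Gamma0 (N * q ^ 2)) 2)
    (hg : ∀ n, ModularFormClass.qCoeff g n = ψ (n : ZMod q) * (a n : ℂ))
    {Ωp Ωm : ℝ} (hΩp : IsLeast {x : ℝ | x ∈ realPeriods f ∧ 0 < x} Ωp)
    (hΩm : IsLeast {x : ℝ | x ∈ imagPeriods f ∧ 0 < x} Ωm) :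
    (ψ (-1) = 1 → ∃ r : ℚ, (Real.sqrt q : ℂ) *
      (2 * π * ∫ t in Set.Ioi (0 : ℝ), g (ofComplex (I * (t : ℂ)))) = r * Ωp) ∧
    (ψ (-1) = -1 → ∃ r : ℚ, (Real.sqrt q : ℂ) *
      (2 * π * ∫ t in Set.Ioi (0 : ℝ), g (ofComplex (I * (t : ℂ)))) = r * Ωm) := by
  obtain ⟨n, hn, γ, hγ⟩ := exists_smul_gaussTau_mul_toZero ha hψ hnd g hg
  obtain ⟨b, hb⟩ : ∃ b : ℕ → ℤ, ∀ m, ModularFormClass.qCoeff g m = (b m : ℂ) := by
    choose k hk using fun m : ℕ => exists_int_apply hψ (m : ZMod q)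
    exact ⟨fun m => k m * a m, fun m => by rw [hg, hk, Int.cast_mul]⟩
  have hz := toZero_eq_integral g
  have hcz := conj_toZero hb
  rw [hz] at hγ hcz
  set J := ∫ t in Set.Ioi (0 : ℝ), g (ofComplex (I * (t : ℂ))) with hJ
  rw [map_mul, map_neg, conj_I] at hcz
  have hJc : conj J = J := by linear_combination (-I) * hcz + (conj J - J) * I_mul_I
  set X := (n : ℂ) * (gaussTau ψ * (2 * π * J)) with hX
  have hXγ : 2 * (π : ℂ) * I * periodMap N f γ = X := by
    rw [hγ, hX]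
    linear_combination -((n : ℂ) * gaussTau ψ * (2 * π * J)) * I_mul_I
  have hXc : conj X = ψ (-1) * X := by
    rw [hX]
    simp [map_ofNat, hJc, conj_gaussTau hψ]
    ring
  have hsq := gaussTau_sq hψ hnd
  have hs : ((Real.sqrt q : ℝ) : ℂ) ^ 2 = q := by
    rw [← ofReal_pow, Real.sq_sqrt (Nat.cast_nonneg q)]; norm_cast
  constructor
  · intro h1
    rw [h1, one_mul] at hXc hsq
    have hXr : X = (X.re : ℂ) := (Complex.conj_eq_iff_re.mp hXc).symm
    obtain ⟨m, hm⟩ := exists_eq_intCast_mul hΩp (mem_realPeriods.mpr ⟨γ, hXγ.trans hXr⟩)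
    have hXm : X = (m : ℂ) * Ωp := by rw [hXr, hm]; push_cast; rfl
    rcases sq_eq_sq_iff_eq_or_eq_neg.mp (hsq.trans hs.symm) with e | e
    · exact rat_mul_of_mul_eq hn (m := m) (by rw [← e]; linear_combination hXm)
    · exact rat_mul_of_mul_eq hn (m := -m) (by
        push_cast
        linear_combination -hXm + (n : ℂ) * (2 * π * J) * e)
  · intro h1
    rw [h1, neg_one_mul] at hXc hsq
    have hre : X.re = 0 := by
      have h := congrArg Complex.re hXc
      simp at h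
      linarith
    have hXi : X = (X.im : ℂ) * I := by
      apply Complex.ext <;> simp [hre]
    obtain ⟨m, hm⟩ : ∃ m : ℤ, X.im = m * Ωm := by
      have h := AddSubgroup.cyclic_of_min hΩm
      have hx : X.im ∈ imagPeriods f := mem_imagPeriods.mpr ⟨γ, hXγ.trans hXi⟩
      rw [h, AddSubgroup.mem_closure_singleton] at hx
      obtain ⟨m, hm⟩ := hx
      exact ⟨m, by rw [← hm, zsmul_eq_mul]⟩
    have hXm : X = (m : ℂ) * Ωm * I := by rw [hXi, hm]; push_cast; rfl
    have hsq' : gaussTau ψ ^ 2 = (I * (Real.sqrt q : ℂ)) ^ 2 := by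
      rw [hsq, mul_pow, hs, I_sq, neg_one_mul]
    rcases sq_eq_sq_iff_eq_or_eq_neg.mp hsq' with e | e
    · exact rat_mul_of_mul_eq hn (m := m) (mul_right_cancel₀ I_ne_zero (by
        linear_combination hXm - (n : ℂ) * (2 * π * J) * e))
    · exact rat_mul_of_mul_eq hn (m := -m) (mul_right_cancel₀ I_ne_zero (by
        push_cast
        linear_combination -hXm + (n : ℂ) * (2 * π * J) * e))

end FA.PeriodLattice

end
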